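import Fermat.Agent.LT.T2.H429.OpsSpec

/-!
# Row LT, tower T2, leaf T2.07.14 `SubMeanLin429` (helper546), OFF-MAIN

Sphere and circle means are additive and homogeneous on the cusp functions: the parametrisations
`Y` are continuous (`SubLocCont429`, T2.07.30), a cusp function is continuous, so all the
integrands are continuous, hence interval integrable, and the inner integral is a continuous
function of the outer variable.  Delivered as `SubLocCont429 K → SubMeanLin429 K`.
Mathlib + A0 + `T2/Spec.lean` (v2) + `T2/H429/OpsSpec.lean` only.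
-/

set_option autoImplicit false

open IsDedekindDomain NumberField MeasureTheory
open Fermat.Agent.LT.H556.A0
open Fermat.Agent.LT.T2 Fermat.Agent.LT.T2.H429

noncomputable section

namespace Fermat.Agent.LT.T2.H546

variable {K : Type} [Field K] [NumberField K]

/-- The entries of `rotZ α * rotY β * torus d` are continuous in `(α, β)`. -/
theorem continuous_sphere_entry_h546 (d : ℝ) (i j : Fin 2) :
    Continuous fun p : ℝ × ℝ => (rotZ p.1 * rotY p.2 * torus d) i j := by
  have h1 : Continuous fun p : ℝ × ℝ => rotZ p.1 := by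
    unfold rotZ
    apply continuous_matrix
    intro i j
    fin_cases i <;> fin_cases j <;> simp <;> fun_prop
  have h2 : Continuous fun p : ℝ × ℝ => rotY p.2 := by
    unfold rotY
    apply continuous_matrix
    intro i j
    fin_cases i <;> fin_cases j <;> simp <;> fun_prop
  have h3 : Continuous fun p : ℝ × ℝ => rotZ p.1 * rotY p.2 * torus d :=
    (h1.matrix_mul h2).matrix_mul continuous_const
  exact h3.matrix_elem i j

/-- The entries of `rotY θ * torus t` are continuous in `θ`. -/
theorem continuous_circle_entry_h546 (t : ℝ) (i j : Fin 2) :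
    Continuous fun θ : ℝ => (rotY θ * torus t) i j := by
  have h2 : Continuous fun θ : ℝ => rotY θ := by
    unfold rotY
    apply continuous_matrix
    intro i j
    fin_cases i <;> fin_cases j <;> simp <;> fun_prop
  have h3 : Continuous fun θ : ℝ => rotY θ * torus t := h2.matrix_mul continuous_const
  exact h3.matrix_elem i j

/-- The parametrisation of a sphere is continuous. -/
theorem continuous_sphere_h546 (hLC : SubLocCont429 K) {w : InfinitePlace K} {d : ℝ}
    {Y : ℝ → ℝ → G K} (hY : IsSphereAt w d Y) :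
    Continuous fun p : ℝ × ℝ => Y p.1 p.2 := by
  apply hLC w (ℝ × ℝ) (fun p : ℝ × ℝ => Y p.1 p.2) (fun p => (hY p.1 p.2).1)
  intro i j
  have : (fun p : ℝ × ℝ => infComp w (Y p.1 p.2) i j)
      = fun p : ℝ × ℝ => (rotZ p.1 * rotY p.2 * torus d) i j := by
    funext p
    rw [(hY p.1 p.2).2]
  rw [this]
  exact continuous_sphere_entry_h546 d i j

/-- The parametrisation of a circle is continuous. -/
theorem continuous_circle_h546 (hLC : SubLocCont429 K) {w : InfinitePlace K} {t : ℝ}
    {Y : ℝ → G K} (hY : IsCircleAt w t Y) : Continuous Y := by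
  apply hLC w ℝ Y (fun θ => (hY θ).1)
  intro i j
  have : (fun θ : ℝ => infComp w (Y θ) i j) = fun θ : ℝ => (rotY θ * torus t) i j := by
    funext θ
    rw [(hY θ).2]
  rw [this]
  exact continuous_circle_entry_h546 t i j

/-- The integrand of the sphere mean is continuous in `(α, β)`. -/
theorem continuous_sphere_integrand_h546 {Y : ℝ → ℝ → G K}
    (hY : Continuous fun p : ℝ × ℝ => Y p.1 p.2) {φ : G K → ℂ} (hφ : Continuous φ) (g : G K) :
    Continuous (Function.uncurry fun α β : ℝ => φ (g * Y α β) * ((Real.sin β : ℝ) : ℂ)) := by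
  have h1 : Continuous fun p : ℝ × ℝ => φ (g * Y p.1 p.2) :=
    hφ.comp (continuous_const.mul hY)
  have h2 : Continuous fun p : ℝ × ℝ => ((Real.sin p.2 : ℝ) : ℂ) := by fun_prop
  exact h1.mul h2

/-- Additivity and homogeneity of an interval integral of continuous functions. -/
theorem intervalIntegral_lin_h546 {f₁ f₂ : ℝ → ℂ} (h1 : Continuous f₁) (h2 : Continuous f₂)
    (c : ℂ) (a b : ℝ) :
    (∫ x in a..b, (f₁ x + c * f₂ x)) = (∫ x in a..b, f₁ x) + c * ∫ x in a..b, f₂ x := by
  have h2' : Continuous fun x => c * f₂ x := continuous_const.mul h2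
  rw [intervalIntegral.integral_add (h1.intervalIntegrable a b) (h2'.intervalIntegrable a b),
    intervalIntegral.integral_const_mul]

/-- The sphere mean is additive and homogeneous on the continuous functions. -/
theorem sphereMean_lin_h546 {Y : ℝ → ℝ → G K} (hY : Continuous fun p : ℝ × ℝ => Y p.1 p.2)
    {φ ψ : G K → ℂ} (hφ : Continuous φ) (hψ : Continuous ψ) (c : ℂ) :
    sphereMean Y (fun g => φ g + c * ψ g) = fun g => sphereMean Y φ g + c * sphereMean Y ψ g := by
  funext g
  have hcφ := continuous_sphere_integrand_h546 hY hφ g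
  have hcψ := continuous_sphere_integrand_h546 hY hψ g
  obtain ⟨Fφ, hFφ⟩ : ∃ F : ℝ → ℝ → ℂ,
      F = fun α β : ℝ => φ (g * Y α β) * ((Real.sin β : ℝ) : ℂ) := ⟨_, rfl⟩
  obtain ⟨Fψ, hFψ⟩ : ∃ F : ℝ → ℝ → ℂ,
      F = fun α β : ℝ => ψ (g * Y α β) * ((Real.sin β : ℝ) : ℂ) := ⟨_, rfl⟩
  rw [← hFφ] at hcφ
  rw [← hFψ] at hcψ
  have e1 : sphereMean Y (fun g => φ g + c * ψ g) g
      = ∫ α in (0 : ℝ)..(2 * Real.pi), ∫ β in (0 : ℝ)..Real.pi, (Fφ α β + c * Fψ α β) := by
    unfold sphereMean
    rw [hFφ, hFψ]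
    congr 1
    funext α
    congr 1
    funext β
    ring
  have e2 : sphereMean Y φ g = ∫ α in (0 : ℝ)..(2 * Real.pi), ∫ β in (0 : ℝ)..Real.pi, Fφ α β := by
    unfold sphereMean
    rw [hFφ]
  have e3 : sphereMean Y ψ g = ∫ α in (0 : ℝ)..(2 * Real.pi), ∫ β in (0 : ℝ)..Real.pi, Fψ α β := by
    unfold sphereMean
    rw [hFψ]
  rw [e1, e2, e3]
  have hin : ∀ α : ℝ, (∫ β in (0 : ℝ)..Real.pi, (Fφ α β + c * Fψ α β))
      = (∫ β in (0 : ℝ)..Real.pi, Fφ α β) + c * ∫ β in (0 : ℝ)..Real.pi, Fψ α β := by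
    intro α
    exact intervalIntegral_lin_h546 (hcφ.comp (Continuous.prodMk_right α))
      (hcψ.comp (Continuous.prodMk_right α)) c 0 Real.pi
  have hin' : (fun α : ℝ => ∫ β in (0 : ℝ)..Real.pi, (Fφ α β + c * Fψ α β))
      = fun α : ℝ => (∫ β in (0 : ℝ)..Real.pi, Fφ α β) + c * ∫ β in (0 : ℝ)..Real.pi, Fψ α β :=
    funext hin
  rw [hin']
  have hoφ : Continuous fun α : ℝ => ∫ β in (0 : ℝ)..Real.pi, Fφ α β :=
    intervalIntegral.continuous_parametric_intervalIntegral_of_continuous' hcφ 0 Real.pi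
  have hoψ : Continuous fun α : ℝ => ∫ β in (0 : ℝ)..Real.pi, Fψ α β :=
    intervalIntegral.continuous_parametric_intervalIntegral_of_continuous' hcψ 0 Real.pi
  exact intervalIntegral_lin_h546 hoφ hoψ c 0 (2 * Real.pi)

/-- The circle mean is additive and homogeneous on the continuous functions. -/
theorem circleMean_lin_h546 {Y : ℝ → G K} (hY : Continuous Y)
    {φ ψ : G K → ℂ} (hφ : Continuous φ) (hψ : Continuous ψ) (c : ℂ) :
    circleMean Y (fun g => φ g + c * ψ g) = fun g => circleMean Y φ g + c * circleMean Y ψ g := by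
  funext g
  have h1 : Continuous fun θ : ℝ => φ (g * Y θ) := hφ.comp (continuous_const.mul hY)
  have h2 : Continuous fun θ : ℝ => ψ (g * Y θ) := hψ.comp (continuous_const.mul hY)
  exact intervalIntegral_lin_h546 h1 h2 c 0 (2 * Real.pi)

/-- **T2.07.14 `SubMeanLin429`** from **T2.07.30 `SubLocCont429`**. -/
theorem subMeanLin_of_locCont_h546 (hLC : SubLocCont429 K) : SubMeanLin429 K := by
  intro 𝔫 _
  refine ⟨?_, ?_⟩
  · intro w _ d _ Y hY φ ψ c hφ hψ
    exact sphereMean_lin_h546 (continuous_sphere_h546 hLC hY) hφ.cont hψ.cont c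
  · intro w _ t _ Y hY φ ψ c hφ hψ
    exact circleMean_lin_h546 (continuous_circle_h546 hLC hY) hφ.cont hψ.cont c

end Fermat.Agent.LT.T2.H546

end
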